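/-
S25 ATLAS/DIV leaf GoodMem, sub-leaf GM1 (field part): a `Good` line bundle over an
algebraically closed field has a canonical section (C1 + C2), which is regular on both charts.
Proposal helper6408.  EXACT statement; replace the `sorry`.

Route: `Good` gives `s ∈ H⁰(M)`, `h¹ = 0`, `h⁰ = 1`, `s₁ ∉ 𝔪_ε M₁`, C2.
* `gen`: `H⁰(M)` is one-dimensional and `s ≠ 0`.
* `eps`: `M₁ ⧸ 𝔪_ε M₁` is one-dimensional over `κ = B₁ ⧸ 𝔪_ε` (`M₁` invertible) and the class of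
  `s₁` is non-zero (or: `zeroIdeal s₁ ⊄ 𝔪_ε`, `𝔪_ε` maximal, `zeroIdeal s₁ • ⊤ = span {s₁}`).
* regular: `κ ⊗[k] A_i` is a domain (`k` alg. closed), `M_i` invertible, `s_i ≠ 0`.
-/
import Fermat.Agent.S25.ATLAS.DIV.Defs
import Fermat.Agent.S25.BC
import Fermat.Agent.S25.ATLAS.DIV.GoodMem.H2845.Field

set_option autoImplicit false

universe u

namespace Fermat.Agent.S25.ATLAS.DIV.GoodMem

open scoped TensorProduct

open GluedModule H2890 HC2928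

variable {k : Type u} [Field k] (𝒞 : CurveData k) [IsAlgClosed k]

theorem exists_isCan_of_good (κ : Type u) [Field κ] [IsAlgClosed κ] [Algebra k κ]
    (M : GluedModule (𝒞.chart κ)) (hM : M.IsLineBundle) (hg : Good 𝒞 M) :
    ∃ s : M.N₁ × M.N₂, IsCan 𝒞 M s ∧ IsRegSec M s := by
  obtain ⟨s, hs₁, hs₂⟩ := hg.sec
  haveI := hM.inv₁
  haveI := H2845.ker_epsR_isMaximal 𝒞 (κ := κ)
  have h1 : (s : M.N₁ × M.N₂).1 ≠ 0 := fun h0 => hs₁ (by rw [h0]; exact Submodule.zero_mem _)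
  have hs0 : s ≠ 0 := fun h => h1 (by rw [h]; rfl)
  have hs0' : (s : M.N₁ × M.N₂) ≠ 0 := fun h => hs0 (Subtype.ext h)
  have hreg := H2845.isRegularSec_of_fst_ne_zero 𝒞 hM s.2 h1
  refine ⟨s, ⟨s.2, hg.h1, ?_, H2845.span_sup_smul_top_of_notMem _ hs₁, hs₂⟩,
    H2845.isRegSec_of_isRegularSec 𝒞 hreg⟩
  intro t ht
  obtain ⟨c, hc⟩ := (finrank_eq_one_iff_of_nonzero' s hs0).1 hg.h0 ⟨t, ht⟩
  have hc' : c • (s : M.N₁ × M.N₂) = t := congrArg Subtype.val hc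
  refine ⟨c, hc'.symm, fun c' h' => ?_⟩
  have h'' : t = c' • (s : M.N₁ × M.N₂) := h'
  exact smul_left_injective κ hs0'
    (show c' • (s : M.N₁ × M.N₂) = c • (s : M.N₁ × M.N₂) from h''.symm.trans hc'.symm)

end Fermat.Agent.S25.ATLAS.DIV.GoodMem
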