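/-
S25 ATLAS/DIV leaf GoodMem, sub-leaf GM4: a pair `(M, s)` whose divisor is the pull-back of the
divisor of `(Q, σ)` IS the base change of `(Q, σ)`, section included.  Any `k`-algebras `S`, `R`.
Proposal helper6408.  EXACT statement; replace the `sorry`.

Route: `Q'` := a base change of `Q` (`exists_isBC`), `σ' = j σ`; `zeroIdeal_i σ' =
(zeroIdeal_i σ)·B'_i` (`H2930.zeroIdeal_j₁/j₂`); C2 passes to `σ'`; C2 for `t` gives
`zeroIdeal₂ t = r₂⁻¹(zeroIdeal₁ t · B₁₂)` (zero ideals commute with localisation and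
`zeroIdeal₂ t + (g) = ⊤` makes `zeroIdeal₂ t` `g`-saturated), hence `zeroIdeal₂ σ' = zeroIdeal₂ s`;
`σ'` is regular (`H2930.smul_injective_of_zeroIdeal_eq`); `H2930.exists_iso_of_zeroIdeal_eq`
gives `Q' ≅ M` with `σ' ↦ s`; transport the base change data along this isomorphism.
-/
import Fermat.Agent.S25.ATLAS.DIV.Defs
import Fermat.Agent.S25.BC
import Fermat.Agent.S25.ATLAS.H2930.DivBC
import Fermat.Agent.S25.ATLAS.DIV.H5928.SecBC

set_option autoImplicit false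

universe u

namespace Fermat.Agent.S25.ATLAS.DIV.GoodMem

open scoped TensorProduct

open GluedModule H2890 HC2928

variable {k : Type u} [Field k] (𝒞 : CurveData k) [IsAlgClosed k]

theorem exists_baseChangeData_of_zeroIdeal₁ {S R : Type u} [CommRing S] [Algebra k S]
    [CommRing R] [Algebra k R] (φ : S →ₐ[k] R)
    (Q : GluedModule (𝒞.chart S)) (M : GluedModule (𝒞.chart R))
    (hQ : Q.IsLineBundle) (hM : M.IsLineBundle)
    (σ : Q.N₁ × Q.N₂) (hσ : σ ∈ Q.H0)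
    (hσaway : Submodule.span (𝒞.chart S).B₂ {σ.2} ⊔
      (Ideal.span {(𝒞.chart S).g}) • (⊤ : Submodule (𝒞.chart S).B₂ Q.N₂) = ⊤)
    (s : M.N₁ × M.N₂) (hs : s ∈ M.H0) (hreg : IsRegSec M s)
    (hsaway : Submodule.span (𝒞.chart R).B₂ {s.2} ⊔
      (Ideal.span {(𝒞.chart R).g}) • (⊤ : Submodule (𝒞.chart R).B₂ M.N₂) = ⊤)
    (h₁ : zeroIdeal₁ 𝒞 M s = (zeroIdeal₁ 𝒞 Q σ).map (𝒞.chartHom φ).ψ₁) :
    ∃ D : BaseChangeData (𝒞.chartHom φ) Q M, D.j₁ σ.1 = s.1 ∧ D.j₂ σ.2 = s.2 := by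
  have : Module.Invertible (𝒞.chart S).B₁ Q.N₁ := hQ.inv₁
  have : Module.Invertible (𝒞.chart R).B₁ M.N₁ := hM.inv₁
  have hQ' : (Q.baseChange (𝒞.chartHom φ)).IsLineBundle :=
    baseChange_isLineBundle (𝒞.chartHom φ) hQ
  have : Module.Invertible (𝒞.chart R).B₁ (Q.baseChange (𝒞.chartHom φ)).N₁ := hQ'.inv₁
  -- the image of `σ₁` in the concrete base change has the same zero ideal as `s₁`, hence is
  -- regular
  have hz : zeroIdeal (𝒞.chart R).B₁ (bcMk₁ (𝒞.chartHom φ) Q 1 σ.1) =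
      zeroIdeal (𝒞.chart R).B₁ s.1 := by
    rw [show zeroIdeal (𝒞.chart R).B₁ s.1 = _ from h₁]
    exact H5928.BCSec.ord_bcMk₁ (𝒞.chartHom φ) hQ σ.1
  have hinj := H2930.smul_injective_of_zeroIdeal_eq hreg.1 hz
  have hreg' : H5928.BCReg₁ (𝒞.chartHom φ) Q σ.1 := by
    intro b hb
    apply hinj
    change b • _ = (0 : (𝒞.chart R).B₁) • _
    rw [hb, zero_smul]
  have hs₁ : H5928.IsRegSec (𝒞.chart R).B₁ s.1 := by
    intro b hb
    apply hreg.1
    change b • s.1 = (0 : (𝒞.chart R).B₁) • s.1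
    rw [hb, zero_smul]
  exact H5928.exists_baseChangeData_of_ord_eq hQ hM ((GluedModule.mem_H0 Q σ).1 hσ) hσaway hreg'
    ((GluedModule.mem_H0 M s).1 hs) hs₁ hsaway h₁

end Fermat.Agent.S25.ATLAS.DIV.GoodMem
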