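/-
S25 ATLAS/DIV leaf GoodMem, sub-leaf GM2 (field part): for a canonical pair `(M, s)` over an
algebraically closed field the zero scheme of `s` on the first chart has length `genus 𝒞`, and a
basis of its coordinate ring can be chosen among the classes of `1 ⊗ a`, `a ∈ A₁`.
Proposal helper6408.  EXACT statement; replace the `sorry`.

Route: (Flat) E1 over a field: six-term sequence of `0 → O →s M → M/sO → 0` with `H⁰(O) = κ`,
`H⁰(M) = κ s`, `H¹(M) = 0`, C2 (`M/sO` lives on the first chart) gives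
`M₁ ⧸ B₁ s₁ ≅ H¹(O_κ) = κ ⊗[k] H¹(O)`, of dimension `genus 𝒞`; `M₁ ⧸ B₁ s₁ = M₁ ⧸ I M₁`
(`I = zeroIdeal s₁`, `H2890.zeroIdeal_smul_top`) has the same dimension as `B₁ ⧸ I` (invertible
module over a finite-dimensional algebra is free of rank one).  Finally `B₁ ⧸ I` is spanned over
`κ` by the classes of `1 ⊗ a`: extract a basis.
-/
import Fermat.Agent.S25.ATLAS.DIV.Defs
import Fermat.Agent.S25.BC
import Fermat.Agent.S25.ATLAS.DIV.GoodMem.H2845.Field

set_option autoImplicit false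

universe u

namespace Fermat.Agent.S25.ATLAS.DIV.GoodMem

open scoped TensorProduct

open GluedModule H2890 HC2928

variable {k : Type u} [Field k] (𝒞 : CurveData k) [IsAlgClosed k]

theorem exists_isFreeOn_of_isCan (κ : Type u) [Field κ] [IsAlgClosed κ] [Algebra k κ]
    (M : GluedModule (𝒞.chart κ)) (hM : M.IsLineBundle) (s : M.N₁ × M.N₂) (hs : IsCan 𝒞 M s) :
    ∃ b : Fin (genus 𝒞) → 𝒞.A₁, IsFreeOn b (zeroIdeal₁ 𝒞 M s) := by
  have h1 := H2845.fst_ne_zero_of_eps 𝒞 hM hs.eps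
  have h2 := H2845.snd_ne_zero_of_fst_ne_zero 𝒞 hM hs.mem h1
  have hreg := H2845.isRegularSec_of_fst_ne_zero 𝒞 hM hs.mem h1
  have hsurj := H2845.surjective_ofSection_H0 𝒞 hs.mem (fun t ht => (hs.gen t ht).exists)
  have hC2 := H2845.ordIdeal₂_sup_span_g 𝒞 hM hs.mem h2 hs.away
  haveI := hs.h1
  obtain ⟨hfin, hrank⟩ := H2845.H4150.finrank_quot_ordIdeal₁ 𝒞 hM hreg hsurj hC2
  obtain ⟨bas, hbas⟩ := H2845.H4150.exists_basis_mem_of_span_eq_top
    (H2845.H4150.span_range_mk_one_tmul 𝒞 (H2845.H1705.ordIdeal₁ M ⟨s, hs.mem⟩)) hrank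
  choose b hb using hbas
  exact ⟨b, bas, fun i => (hb i).symm⟩

end Fermat.Agent.S25.ATLAS.DIV.GoodMem
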