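/-
S25 ATLAS/DIV leaf GoodMem, sub-leaf GM5 (openness of C1 for a GIVEN section): if the image of
`σ` is a canonical section of one fibre of `Q`, then it is a canonical section of every base
change of `Q` to an `R`-algebra in which some `a`, non-zero at that fibre, is invertible.
Any `k`-algebra `R`, any field `κ`.
Proposal helper6408.  DONE (helper6408): proof in `GoodMem/GM5/{Alg,Coh,Main}.lean`.

Route (`Lib/Coh`, `Lib/BCRel`): C2 is given for `σ` and passes to every base change.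
* `h1`: `H¹(Q)` is a finite `R`-module (F) and `H¹` commutes with base change; `H¹(Q) ⊗ κ = 0`
  gives `a₁` with `H¹(Q)[1/a₁] = 0` (Nakayama), hence `H¹(M') = 0` when `a₁` is invertible.
* `gen`: over `R₁ = R[1/a₁]`, `H⁰` is finite projective and commutes with EVERY base change
  (CB1); `R₁ → H⁰(Q₁)`, `1 ↦ σ`, is an isomorphism at the fibre, so it is surjective over some
  `D(a₂)` (finite cokernel), then split with finite kernel vanishing at the fibre, so bijective
  over some `D(a₃)`; base change.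
* `eps`: the `ε`-fibre `Q₁ ⧸ 𝔪_ε Q₁` is a finite `R`-module, generated by the class of `σ₁` at
  the fibre, hence over some `D(a₄)`; base change.
-/
import Fermat.Agent.S25.ATLAS.DIV.Defs
import Fermat.Agent.S25.BC
import Fermat.Agent.S25.ATLAS.DIV.GoodMem.GM5.Main

set_option autoImplicit false

universe u

namespace Fermat.Agent.S25.ATLAS.DIV.GoodMem

open scoped TensorProduct

open GluedModule H2890 HC2928

variable {k : Type u} [Field k] (𝒞 : CurveData k) [IsAlgClosed k]

theorem spread_isCan {R : Type u} [CommRing R] [Algebra k R] (Q : GluedModule (𝒞.chart R))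
    (hQ : Q.IsLineBundle) (σ : Q.N₁ × Q.N₂) (hσ : σ ∈ Q.H0)
    (hσaway : Submodule.span (𝒞.chart R).B₂ {σ.2} ⊔
      (Ideal.span {(𝒞.chart R).g}) • (⊤ : Submodule (𝒞.chart R).B₂ Q.N₂) = ⊤)
    (κ : Type u) [Field κ] [Algebra k κ] (φ₀ : R →ₐ[k] κ)
    (M₀ : GluedModule (𝒞.chart κ)) (D₀ : BaseChangeData (𝒞.chartHom φ₀) Q M₀)
    (h₀ : IsCan 𝒞 M₀ (D₀.j₁ σ.1, D₀.j₂ σ.2)) :
    ∃ a : R, φ₀ a ≠ 0 ∧ ∀ (R' : Type u) [CommRing R'] [Algebra k R'] (φ : R →ₐ[k] R')
      (M' : GluedModule (𝒞.chart R')) (D : BaseChangeData (𝒞.chartHom φ) Q M'),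
      IsUnit (φ a) → IsCan 𝒞 M' (D.j₁ σ.1, D.j₂ σ.2) :=
  GM5.spread_isCan' 𝒞 hQ σ hσ hσaway κ φ₀ M₀ D₀ h₀

end Fermat.Agent.S25.ATLAS.DIV.GoodMem
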