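/-
S25 ATLAS/DIV leaf GoodMem, sub-leaf GM3: the universal bundle `O(D_univ)` over the whole
Hilbert chart `S_b`, with its canonical section `1_D`.
Proposal helper6408.  EXACT statement; PROVED by helper6251 (dual route; helper files
`GoodMem/H6251/{Closed,Univ}.lean`).

Route: `I = univIdeal ⊆ S_b ⊗ A₁`, quotient free of rank `g` over `S_b` (`univIdeal_isFreeOn`).
* (Inv) `I` is an invertible `S_b ⊗ A₁`-module (`S_b` of finite type over `k` alg. closed, `A₁`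
  Dedekind: helper5305 `invertible_of_projective_quotient`, helper2891, helper7931, helper325).
* (Closed) `𝔞₂ = r₂⁻¹(I·B₁₂)`, `𝔞₂ + (g) = ⊤` (Cayley–Hamilton), `𝔞₂` invertible:
  `O(-D) = (I, 𝔞₂, I·B₁₂)` is a line bundle (helper7510 `idealSheaf`, `idealSheaf_isLineBundle`).
* `Q = O(D)` = dual of `O(-D)` (`Lib/Tensor` `lbDual`), `σ = (I ↪ B₁, 𝔞₂ ↪ B₂)`;
  `zeroIdeal (canonicalSection I) = I` (`H2890.zeroIdeal_canonicalSection`); C2 for `σ` is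
  `𝔞₂ + (g) = ⊤`.
-/
import Fermat.Agent.S25.ATLAS.DIV.Defs
import Fermat.Agent.S25.BC
import Fermat.Agent.S25.ATLAS.DIV.GoodMem.H6251.Univ

set_option autoImplicit false

universe u

namespace Fermat.Agent.S25.ATLAS.DIV.GoodMem

open scoped TensorProduct

open GluedModule H2890 HC2928

variable {k : Type u} [Field k] (𝒞 : CurveData k) [IsAlgClosed k]

theorem exists_univ_section {g : ℕ} (b : Fin g → 𝒞.A₁) :
    ∃ (Q : GluedModule (𝒞.chart (HilbChart k 𝒞.A₁ b))) (σ : Q.N₁ × Q.N₂),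
      Q.IsLineBundle ∧ σ ∈ Q.H0 ∧
      Submodule.span (𝒞.chart (HilbChart k 𝒞.A₁ b)).B₂ {σ.2} ⊔
        (Ideal.span {(𝒞.chart (HilbChart k 𝒞.A₁ b)).g}) •
          (⊤ : Submodule (𝒞.chart (HilbChart k 𝒞.A₁ b)).B₂ Q.N₂) = ⊤ ∧
      zeroIdeal₁ 𝒞 Q σ = univIdeal k 𝒞.A₁ b := by
  obtain ⟨B, -⟩ := univIdeal_isFreeOn (k := k) (A := 𝒞.A₁) b
  have hfin := Module.Finite.of_basis B
  have hproj := Module.Projective.of_basis B
  obtain ⟨Q, σ, hQ, hσ, haway, hzero, -⟩ :=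
    @H6251.exists_div_section k _ _ 𝒞 (HilbChart k 𝒞.A₁ b) _ _ (univIdeal k 𝒞.A₁ b) hfin hproj
  exact ⟨Q, σ, hQ, hσ, haway, hzero⟩

end Fermat.Agent.S25.ATLAS.DIV.GoodMem
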