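/-
S25 ATLAS/DIV leaf GoodMem -- PLAN (proposal helper6408, slot 6).
`exists_univPair_of_good` (the frozen leaf of `ATLAS/DIV/GoodMem.lean`, captain helper6325) is
DERIVED here, with no sorry of its own, from five sub-leaves with exact statements:

* GM1 `GoodMem/Can.lean`    `exists_isCan_of_good`      (field: `Good` ⇒ canonical regular section)
* GM2 `GoodMem/Free.lean`   `exists_isFreeOn_of_isCan`  (field: (Flat) E1 + choice of `b`)
* GM3 `GoodMem/Univ.lean`   `exists_univ_section`       (`O(D_univ)`, `1_D` over `S_b`: (Inv), (Closed), dual)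
* GM4 `GoodMem/Fibre.lean`  `exists_baseChangeData_of_zeroIdeal₁` (equal divisors ⇒ base change, with sections)
* GM5 `GoodMem/Spread.lean` `spread_isCan`              (openness of C1 for a given section)

Proof: `Good M` gives a canonical regular section `s` (GM1) and `b` with `B₁ ⧸ zeroIdeal s₁` free
on `1 ⊗ b` (GM2), hence a `κ`-point `x` of the Hilbert chart `S_b`.  The universal pair `(Q, σ)`
over `S_b` (GM3) has fibre `(M, s)` at `x` (GM4), so `σ` is canonical over some `S_b[1/a]`,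
`x a ≠ 0` (GM5): the base change of `(Q, σ)` to `S_b[1/a]` is a universal pair for the index
`(b, a)`, and `(M, s)` lies in the chart `(b, a)`.
-/
import Fermat.Agent.S25.ATLAS.H2930.DivBC
import Fermat.Agent.S25.ATLAS.DIV.GoodMem.Can
import Fermat.Agent.S25.ATLAS.DIV.GoodMem.Free
import Fermat.Agent.S25.ATLAS.DIV.GoodMem.Univ
import Fermat.Agent.S25.ATLAS.DIV.GoodMem.Fibre
import Fermat.Agent.S25.ATLAS.DIV.GoodMem.Spread

set_option autoImplicit false

universe u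

namespace Fermat.Agent.S25.ATLAS.DIV.GoodMem

open scoped TensorProduct

open GluedModule H2890 HC2928

variable {k : Type u} [Field k] (𝒞 : CurveData k)

/-- The ideal of the point of the Hilbert chart attached to an ideal with quotient free on `b`
is that ideal, as a pull-back of the universal ideal along the family map. -/
theorem univIdeal_map_point {g : ℕ} {b : Fin g → 𝒞.A₁} {R : Type u} [CommRing R] [Algebra k R]
    (I : Ideal (R ⊗[k] 𝒞.A₁)) (hI : IsFreeOn b I) :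
    (univIdeal k 𝒞.A₁ b).map
      (𝒞.chartHom ((idealEquiv (b := b) (R := R)).symm ⟨I, hI⟩)).ψ₁ = I := by
  have h := congrArg Subtype.val ((idealEquiv (b := b) (R := R)).apply_symm_apply ⟨I, hI⟩)
  change (Datum.ofHom ((idealEquiv (b := b) (R := R)).symm ⟨I, hI⟩)).ideal = I at h
  rw [ideal_ofHom_eq_map] at h
  exact h

/-- The point attached to the pull-back of the universal ideal along `x` is `x`. -/
theorem point_univIdeal_map {g : ℕ} {b : Fin g → 𝒞.A₁} {R : Type u} [CommRing R] [Algebra k R]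
    (x : HilbChart k 𝒞.A₁ b →ₐ[k] R) (I : Ideal (R ⊗[k] 𝒞.A₁)) (hI : IsFreeOn b I)
    (h : I = (univIdeal k 𝒞.A₁ b).map (Algebra.TensorProduct.map x (AlgHom.id k 𝒞.A₁))) :
    (idealEquiv (b := b) (R := R)).symm ⟨I, hI⟩ = x := by
  rw [Equiv.symm_apply_eq]
  apply Subtype.ext
  change I = (Datum.ofHom x).ideal
  rw [h, ideal_ofHom_eq_map]

variable [IsAlgClosed k]

/-- **Leaf GoodMem**, derived from the sub-leaves GM1–GM5. -/
theorem exists_univPair_of_good (κ : Type u) [Field κ] [IsAlgClosed κ] [Algebra k κ]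
    (M : GluedModule (𝒞.chart κ)) (hM : M.IsLineBundle) (_hr : Rigid 𝒞 M) (hg : Good 𝒞 M) :
    ∃ (b : Fin (genus 𝒞) → 𝒞.A₁) (h : HilbChart k 𝒞.A₁ b) (_ : UnivPair 𝒞 b h)
      (s : M.N₁ × M.N₂), InDivChart 𝒞 b h M s := by
  -- the canonical section of `M` and the basis `b`
  obtain ⟨s, hs, hreg⟩ := exists_isCan_of_good 𝒞 κ M hM hg
  obtain ⟨b, hb⟩ := exists_isFreeOn_of_isCan 𝒞 κ M hM s hs
  -- the universal pair over the Hilbert chart
  obtain ⟨Q, σ, hQ, hσ, hσaway, hσI⟩ := exists_univ_section 𝒞 b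
  -- the point of the Hilbert chart defined by `(M, s)`; `(M, s)` is the fibre of `(Q, σ)`
  have h₁ : zeroIdeal₁ 𝒞 M s = (zeroIdeal₁ 𝒞 Q σ).map
      (𝒞.chartHom ((idealEquiv (b := b) (R := κ)).symm ⟨zeroIdeal₁ 𝒞 M s, hb⟩)).ψ₁ := by
    rw [hσI]
    exact (univIdeal_map_point 𝒞 _ hb).symm
  obtain ⟨D₀, hD1, hD2⟩ := exists_baseChangeData_of_zeroIdeal₁ 𝒞
    ((idealEquiv (b := b) (R := κ)).symm ⟨zeroIdeal₁ 𝒞 M s, hb⟩) Q M hQ hM σ hσ hσaway s hs.mem
    hreg hs.away h₁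
  have h₀ : IsCan 𝒞 M (D₀.j₁ σ.1, D₀.j₂ σ.2) := by
    rw [hD1, hD2]
    exact hs
  -- openness: `σ` is canonical over `S_b[1/a]`
  obtain ⟨a, ha, Ha⟩ := spread_isCan 𝒞 Q hQ σ hσ hσaway κ
    ((idealEquiv (b := b) (R := κ)).symm ⟨zeroIdeal₁ 𝒞 M s, hb⟩) M D₀ h₀
  -- the universal pair over `S_b[1/a]`
  obtain ⟨Q', hQ'⟩ := exists_isBC 𝒞
    (IsScalarTower.toAlgHom k (HilbChart k 𝒞.A₁ b) (Localization.Away a)) Q
  have hQ'lb : Q'.IsLineBundle := isLineBundle_of_isBC 𝒞 _ Q Q' hQ hQ'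
  obtain ⟨D⟩ := hQ'
  have hcan : IsCan 𝒞 Q' (D.j₁ σ.1, D.j₂ σ.2) :=
    Ha _ (IsScalarTower.toAlgHom k (HilbChart k 𝒞.A₁ b) (Localization.Away a)) Q' D
      (IsLocalization.Away.algebraMap_isUnit a)
  have hzero : zeroIdeal₁ 𝒞 Q' (D.j₁ σ.1, D.j₂ σ.2) = (univIdeal k 𝒞.A₁ b).map
      (Algebra.TensorProduct.map
        (IsScalarTower.toAlgHom k (HilbChart k 𝒞.A₁ b) (Localization.Away a))
        (AlgHom.id k 𝒞.A₁)) := by
    have hinv := hQ.inv₁
    have h2 := H2930.zeroIdeal_j₁ D σ.1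
    have h3 : zeroIdeal (𝒞.chart (HilbChart k 𝒞.A₁ b)).B₁ σ.1 = univIdeal k 𝒞.A₁ b := hσI
    rw [h3] at h2
    exact h2
  have hfree : IsFreeOn b (zeroIdeal₁ 𝒞 Q' (D.j₁ σ.1, D.j₂ σ.2)) := by
    rw [hzero, ← ideal_ofHom_eq_map]
    exact (Datum.ofHom _).isFreeOn
  have hpoint := point_univIdeal_map 𝒞
    (IsScalarTower.toAlgHom k (HilbChart k 𝒞.A₁ b) (Localization.Away a)) _ hfree hzero
  refine ⟨b, a, ⟨Q', hQ'lb, (D.j₁ σ.1, D.j₂ σ.2), ⟨hcan, hfree, ?_⟩, hzero⟩, s, ⟨hs, hb, ?_⟩⟩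
  · rw [hpoint]
    exact IsLocalization.Away.algebraMap_isUnit a
  · exact isUnit_iff_ne_zero.2 ha

end Fermat.Agent.S25.ATLAS.DIV.GoodMem
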